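import Mathlib
import Fermat.Prelude.Def_ModularCurve_PeriodHomPair

/-!
# Basic facts on the period map (P-PERIOD, piece S21-B, part 1)

Everything here is conditional on the existence of equivariant primitives
(`hprim`, piece S21-A).  We show

* uniqueness of a decaying primitive, hence the formula
  `periodMap N f γ = F (γ • I) - F I` for *any* equivariant primitive `F` of `f`;
* linearity of `periodMap`, i.e. `ExistsPeriodMapLinear N`;
* the explicit formula for `periodHomPair`.
-/

set_option autoImplicit false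

namespace Fermat.Agent.H31

open UpperHalfPlane CongruenceSubgroup Filter Topology ModularCurve ModularCurve.Period
open scoped MatrixGroups

/-- The open upper half plane (as a subset of `ℂ`) is preconnected. -/
theorem isPreconnected_uhpSet : IsPreconnected {z : ℂ | 0 < z.im} :=
  (Complex.isConnected_of_upperHalfPlane subset_rfl (by grind)).isPreconnected

/-- A function on `ℍ` whose pull-back to `ℂ` has zero derivative everywhere is constant. -/
theorem const_of_hasDerivAt_zero {G : ℍ → ℂ}
    (hG : ∀ τ : ℍ, HasDerivAt (G ∘ ofComplex) 0 (τ : ℂ)) (z w : ℍ) : G z = G w := by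
  have hopen : IsOpen {z : ℂ | 0 < z.im} := isOpen_upperHalfPlaneSet
  have hdiff : DifferentiableOn ℂ (G ∘ ofComplex) {z : ℂ | 0 < z.im} := fun x hx =>
    (hG ⟨x, hx⟩).differentiableAt.differentiableWithinAt
  have hderiv : Set.EqOn (deriv (G ∘ ofComplex)) 0 {z : ℂ | 0 < z.im} := fun x hx =>
    (hG ⟨x, hx⟩).deriv
  have := hopen.is_const_of_deriv_eq_zero isPreconnected_uhpSet hdiff hderiv z.im_pos w.im_pos
  simpa [ofComplex_apply] using this

/-- Two primitives of the same function, both decaying at `i∞`, coincide. -/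
theorem primitive_unique {f : ℍ → ℂ} {F₁ F₂ : ℍ → ℂ}
    (h₁ : ∀ τ : ℍ, HasDerivAt (F₁ ∘ ofComplex) (f τ) (τ : ℂ))
    (h₂ : ∀ τ : ℍ, HasDerivAt (F₂ ∘ ofComplex) (f τ) (τ : ℂ))
    (l₁ : Tendsto F₁ atImInfty (𝓝 0)) (l₂ : Tendsto F₂ atImInfty (𝓝 0)) : F₁ = F₂ := by
  have hG : ∀ τ : ℍ, HasDerivAt ((fun z => F₁ z - F₂ z) ∘ ofComplex) 0 (τ : ℂ) := by
    intro τ
    have := (h₁ τ).fun_sub (h₂ τ)
    simpa [Function.comp_def] using this
  have hconst := const_of_hasDerivAt_zero hG
  have hlim : Tendsto (fun z => F₁ z - F₂ z) atImInfty (𝓝 (0 - 0)) := l₁.sub l₂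
  have hlim' : Tendsto (fun z => F₁ z - F₂ z) atImInfty (𝓝 (F₁ I - F₂ I)) := by
    have : (fun z => F₁ z - F₂ z) = fun _ => F₁ I - F₂ I := funext fun z => hconst z I
    rw [this]
    exact tendsto_const_nhds
  have hzero : F₁ I - F₂ I = 0 - 0 := tendsto_nhds_unique hlim' hlim
  funext z
  have := hconst z I
  rw [hzero] at this
  simpa [sub_eq_zero] using this

/-- Uniqueness of the equivariant primitive of a cusp form. -/
theorem hasEquivariantPrimitive_unique {N : ℕ} {f : CuspForm (Gamma0 N) 2} {F₁ F₂ : ℍ → ℂ}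
    (h₁ : HasEquivariantPrimitive N f F₁) (h₂ : HasEquivariantPrimitive N f F₂) : F₁ = F₂ :=
  primitive_unique h₁.1 h₂.1 h₁.2.1 h₂.2.1

/-- **Apply formula for the period map**: for any equivariant primitive `F` of `f`,
`periodMap N f γ = F (γ • I) - F I`. -/
theorem periodMap_apply_of_hasEquivariantPrimitive {N : ℕ} {f : CuspForm (Gamma0 N) 2}
    {F : ℍ → ℂ} (hF : HasEquivariantPrimitive N f F) (γ : Gamma0 N) :
    periodMap N f (Additive.ofMul γ)
      = F ((γ : SL(2, ℤ)) • UpperHalfPlane.I) - F UpperHalfPlane.I := by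
  obtain ⟨F₀, h₀, h⟩ := periodMap_def N f hF
  have hFF : F₀ = F := hasEquivariantPrimitive_unique h₀ hF
  subst hFF
  rw [h]
  rfl

/-- Variant of the apply formula at an arbitrary base point. -/
theorem periodMap_apply_of_hasEquivariantPrimitive' {N : ℕ} {f : CuspForm (Gamma0 N) 2}
    {F : ℍ → ℂ} (hF : HasEquivariantPrimitive N f F) (γ : Gamma0 N) (z : ℍ) :
    periodMap N f (Additive.ofMul γ) = F ((γ : SL(2, ℤ)) • z) - F z := by
  rw [periodMap_apply_of_hasEquivariantPrimitive hF γ]
  exact (hF.2.2.1.sub_eq_period γ z).symm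

/-- The sum of equivariant primitives is an equivariant primitive of the sum. -/
theorem hasEquivariantPrimitive_add {N : ℕ} {f g : CuspForm (Gamma0 N) 2} {F G : ℍ → ℂ}
    (hF : HasEquivariantPrimitive N f F) (hG : HasEquivariantPrimitive N g G) :
    HasEquivariantPrimitive N (f + g) (fun z => F z + G z) := by
  refine ⟨fun τ => ?_, ?_, fun γ => ?_, fun δ => ?_⟩
  · have := (hF.1 τ).fun_add (hG.1 τ)
    simpa [Function.comp_def] using this
  · simpa using hF.2.1.add hG.2.1
  · obtain ⟨c, hc⟩ := hF.2.2.1 γ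
    obtain ⟨d, hd⟩ := hG.2.2.1 γ
    refine ⟨c + d, fun z => ?_⟩
    rw [← hc z, ← hd z]; ring
  · obtain ⟨L, hL⟩ := hF.2.2.2 δ
    obtain ⟨M, hM⟩ := hG.2.2.2 δ
    exact ⟨L + M, hL.add hM⟩

/-- A scalar multiple of an equivariant primitive is an equivariant primitive. -/
theorem hasEquivariantPrimitive_smul {N : ℕ} {f : CuspForm (Gamma0 N) 2} {F : ℍ → ℂ}
    (c : ℂ) (hF : HasEquivariantPrimitive N f F) :
    HasEquivariantPrimitive N (c • f) (fun z => c * F z) := by
  refine ⟨fun τ => ?_, ?_, fun γ => ?_, fun δ => ?_⟩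
  · have := (hF.1 τ).const_mul c
    simpa [Function.comp_def] using this
  · simpa using hF.2.1.const_mul c
  · obtain ⟨a, ha⟩ := hF.2.2.1 γ
    refine ⟨c * a, fun z => ?_⟩
    rw [← ha z]; ring
  · obtain ⟨L, hL⟩ := hF.2.2.2 δ
    exact ⟨c * L, hL.const_mul c⟩

/-- **Linearity of the period map**, given existence of equivariant primitives. -/
theorem existsPeriodMapLinear_of {N : ℕ}
    (hprim : ∀ f : CuspForm (Gamma0 N) 2, ∃ F : ℍ → ℂ, HasEquivariantPrimitive N f F) :
    ExistsPeriodMapLinear N := by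
  refine ⟨{ toFun := fun f => periodMap N f, map_add' := ?_, map_smul' := ?_ }, fun f => rfl⟩
  · intro f g
    obtain ⟨F, hF⟩ := hprim f
    obtain ⟨G, hG⟩ := hprim g
    refine AddMonoidHom.ext fun γ => ?_
    obtain ⟨γ, rfl⟩ := Additive.ofMul.surjective γ
    rw [AddMonoidHom.add_apply, periodMap_apply_of_hasEquivariantPrimitive hF,
      periodMap_apply_of_hasEquivariantPrimitive hG,
      periodMap_apply_of_hasEquivariantPrimitive (hasEquivariantPrimitive_add hF hG)]
    ring
  · intro c f
    obtain ⟨F, hF⟩ := hprim f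
    refine AddMonoidHom.ext fun γ => ?_
    obtain ⟨γ, rfl⟩ := Additive.ofMul.surjective γ
    rw [RingHom.id_apply, AddMonoidHom.smul_apply,
      periodMap_apply_of_hasEquivariantPrimitive hF,
      periodMap_apply_of_hasEquivariantPrimitive (hasEquivariantPrimitive_smul c hF),
      smul_eq_mul]
    ring

/-- **Explicit formula for `periodHomPair`**, given existence of equivariant primitives. -/
theorem periodHomPair_apply {N : ℕ}
    (hprim : ∀ f : CuspForm (Gamma0 N) 2, ∃ F : ℍ → ℂ, HasEquivariantPrimitive N f F)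
    (f g : CuspForm (Gamma0 N) 2) (γ : Gamma0 N) :
    periodHomPair N (f, g) (Additive.ofMul γ)
      = periodMap N f (Additive.ofMul γ)
        + periodMap N f (Additive.ofMul (jConjGamma0 N γ))
        + (periodMap N g (Additive.ofMul γ)
        - periodMap N g (Additive.ofMul (jConjGamma0 N γ))) := by
  obtain ⟨pml, hpml, h⟩ := periodHomPair_def N (existsPeriodMapLinear_of hprim)
  rw [h]
  simp only [LinearMap.coprod_apply, LinearMap.comp_apply, LinearMap.add_apply,
    LinearMap.sub_apply, LinearMap.id_apply, AddMonoidHom.add_apply, AddMonoidHom.sub_apply,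
    charInvolution_apply, hpml, toMul_ofMul]

end Fermat.Agent.H31
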