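import Mathlib
import Fermat.Agent.H31.PeriodBasic
import Fermat.Agent.H31.MaxPrinciple

/-!
# Injectivity of `periodHomPair` (P-PERIOD, piece S21-B, part 3)

Conditional on the existence of equivariant primitives (`hprim`, piece S21-A), the
Eichler–Shimura map `periodHomPair N` is injective.
-/

set_option autoImplicit false

namespace Fermat.Agent.H31

open UpperHalfPlane CongruenceSubgroup Filter Topology Function ModularCurve ModularCurve.Period
open scoped MatrixGroups Manifold ComplexConjugate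

/-- The reflection `z ↦ -conj z` intertwines `γ` and `jConjSL γ`. -/
theorem jConjSL_smul_J (γ : SL(2, ℤ)) (z : ℍ) :
    (jConjSL γ) • (UpperHalfPlane.J • z) = UpperHalfPlane.J • (γ • z) := by
  have hmat : Matrix.SpecialLinearGroup.mapGL ℝ (jConjSL γ) * UpperHalfPlane.J
      = UpperHalfPlane.J * Matrix.SpecialLinearGroup.mapGL ℝ γ := by
    ext i j
    fin_cases i <;> fin_cases j <;> simp [Matrix.mul_apply, Fin.sum_univ_two, jConjMat]
  show (Matrix.SpecialLinearGroup.mapGL ℝ (jConjSL γ)) • (UpperHalfPlane.J • z)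
    = UpperHalfPlane.J • ((Matrix.SpecialLinearGroup.mapGL ℝ γ) • z)
  rw [← mul_smul, ← mul_smul, hmat]

/-- The reflection is an involution. -/
theorem J_smul_J_smul (z : ℍ) : UpperHalfPlane.J • (UpperHalfPlane.J • z) = z := by
  rw [← mul_smul, ← sq, UpperHalfPlane.J_sq, one_smul]

/-- The reflection preserves the imaginary part. -/
theorem im_J_smul (z : ℍ) : (UpperHalfPlane.J • z).im = z.im := by
  have h : ((UpperHalfPlane.J • z : ℍ) : ℂ).im = (z : ℂ).im := by
    rw [UpperHalfPlane.coe_J_smul]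
    simp
  exact h

/-- The reflection preserves the filter `atImInfty`. -/
theorem tendsto_J_smul_atImInfty :
    Tendsto (fun w : ℍ => UpperHalfPlane.J • w) atImInfty atImInfty := by
  rw [atImInfty, tendsto_comap_iff]
  have : (UpperHalfPlane.im ∘ fun w : ℍ => UpperHalfPlane.J • w) = UpperHalfPlane.im := by
    funext w
    exact im_J_smul w
  rw [this]
  exact tendsto_comap

/-- The reflected conjugate of a holomorphic function is holomorphic. -/
theorem mdiff_reflect {F : ℍ → ℂ} (hF : MDiff F) :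
    MDiff (fun z : ℍ => conj (F (UpperHalfPlane.J • z))) := by
  rw [UpperHalfPlane.mdifferentiable_iff] at hF ⊢
  intro z hz
  have hz' : 0 < (conj (-z)).im := by simpa using hz
  have h1 : DifferentiableAt ℂ (F ∘ ofComplex) (conj (-z)) :=
    (hF _ hz').differentiableAt (isOpen_upperHalfPlaneSet.mem_nhds hz')
  have h2 : DifferentiableAt ℂ (conj ∘ (F ∘ ofComplex) ∘ conj) (-z) :=
    differentiableAt_conj_conj_iff.mpr h1
  have h3 : DifferentiableAt ℂ (fun y : ℂ => (conj ∘ (F ∘ ofComplex) ∘ conj) (-y)) z :=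
    h2.comp z differentiable_neg.differentiableAt
  refine (h3.congr_of_eventuallyEq ?_).differentiableWithinAt
  filter_upwards [isOpen_upperHalfPlaneSet.mem_nhds hz] with y hy
  have hy' : 0 < (conj (-y)).im := by simpa using hy
  simp only [comp_apply]
  congr 2
  ext
  rw [UpperHalfPlane.coe_J_smul, ofComplex_apply_of_im_pos hy, ofComplex_apply_of_im_pos hy']
  simp

/-- An equivariant primitive is holomorphic. -/
theorem mdiff_of_hasEquivariantPrimitive {N : ℕ} {f : CuspForm (Gamma0 N) 2} {F : ℍ → ℂ}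
    (hF : HasEquivariantPrimitive N f F) : MDiff F :=
  UpperHalfPlane.mdifferentiable_iff.mpr fun z hz =>
    (hF.1 ⟨z, hz⟩).differentiableAt.differentiableWithinAt

/-- Periods of the reflected conjugate of an equivariant primitive. -/
theorem reflect_sub_eq {N : ℕ} {f : CuspForm (Gamma0 N) 2} {F : ℍ → ℂ}
    (hF : HasEquivariantPrimitive N f F) (γ : Gamma0 N) (z : ℍ) :
    conj (F (UpperHalfPlane.J • ((γ : SL(2, ℤ)) • z))) - conj (F (UpperHalfPlane.J • z))
      = conj (periodMap N f (Additive.ofMul (jConjGamma0 N γ))) := by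
  rw [periodMap_apply_of_hasEquivariantPrimitive' hF (jConjGamma0 N γ) (UpperHalfPlane.J • z),
    jConjGamma0_coe, jConjSL_smul_J, map_sub]

/-- Limits at the cusps of the reflected conjugate of an equivariant primitive. -/
theorem reflect_tendsto {N : ℕ} {f : CuspForm (Gamma0 N) 2} {F : ℍ → ℂ}
    (hF : HasEquivariantPrimitive N f F) (δ : SL(2, ℤ)) :
    ∃ L : ℂ, Tendsto (fun w : ℍ => conj (F (UpperHalfPlane.J • (δ • w)))) atImInfty (𝓝 L) := by
  obtain ⟨L, hL⟩ := hF.2.2.2 (jConjSL δ)
  refine ⟨conj L, ?_⟩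
  have h1 : Tendsto (fun w : ℍ => F ((jConjSL δ) • (UpperHalfPlane.J • w))) atImInfty (𝓝 L) :=
    hL.comp tendsto_J_smul_atImInfty
  have h2 : (fun w : ℍ => conj (F (UpperHalfPlane.J • (δ • w))))
      = fun w : ℍ => conj (F ((jConjSL δ) • (UpperHalfPlane.J • w))) := by
    funext w
    rw [jConjSL_smul_J]
  rw [h2]
  exact (Complex.continuous_conj.tendsto L).comp h1

/-- **Injectivity of the Eichler–Shimura map** `periodHomPair N`, conditional on the existence
of equivariant primitives. -/
theorem injective_periodHomPair (N : ℕ) [NeZero N]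
    (hprim : ∀ f : CuspForm (Gamma0 N) 2, ∃ F : ℍ → ℂ, HasEquivariantPrimitive N f F) :
    Function.Injective (periodHomPair N) := by
  rw [injective_iff_map_eq_zero]
  rintro ⟨f, g⟩ hfg
  obtain ⟨F, hF⟩ := hprim f
  obtain ⟨G, hG⟩ := hprim g
  -- the kernel condition
  have hker : ∀ γ : Gamma0 N,
      periodMap N f (Additive.ofMul γ) + periodMap N f (Additive.ofMul (jConjGamma0 N γ))
        + (periodMap N g (Additive.ofMul γ)
          - periodMap N g (Additive.ofMul (jConjGamma0 N γ))) = 0 := by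
    intro γ
    rw [← periodHomPair_apply hprim f g γ, hfg]
    rfl
  have hFmd : MDiff F := mdiff_of_hasEquivariantPrimitive hF
  have hGmd : MDiff G := mdiff_of_hasEquivariantPrimitive hG
  have hFs : MDiff (fun z : ℍ => conj (F (UpperHalfPlane.J • z))) := mdiff_reflect hFmd
  have hGs : MDiff (fun z : ℍ => conj (G (UpperHalfPlane.J • z))) := mdiff_reflect hGmd
  -- transformation behaviour of `A = F + G` and `B = Fs - Gs`
  have hAsub : ∀ (γ : Gamma0 N) (z : ℍ),
      (F ((γ : SL(2, ℤ)) • z) + G ((γ : SL(2, ℤ)) • z)) - (F z + G z)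
        = periodMap N f (Additive.ofMul γ) + periodMap N g (Additive.ofMul γ) := by
    intro γ z
    rw [periodMap_apply_of_hasEquivariantPrimitive' hF γ z,
      periodMap_apply_of_hasEquivariantPrimitive' hG γ z]
    ring
  have hBsub : ∀ (γ : Gamma0 N) (z : ℍ),
      (conj (F (UpperHalfPlane.J • ((γ : SL(2, ℤ)) • z)))
          - conj (G (UpperHalfPlane.J • ((γ : SL(2, ℤ)) • z))))
        - (conj (F (UpperHalfPlane.J • z)) - conj (G (UpperHalfPlane.J • z)))
        = conj (periodMap N f (Additive.ofMul (jConjGamma0 N γ))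
            - periodMap N g (Additive.ofMul (jConjGamma0 N γ))) := by
    intro γ z
    rw [map_sub, ← reflect_sub_eq hF γ z, ← reflect_sub_eq hG γ z]
    ring
  have hAlim : ∀ δ : SL(2, ℤ), ∃ L : ℂ,
      Tendsto (fun w : ℍ => F (δ • w) + G (δ • w)) atImInfty (𝓝 L) := by
    intro δ
    obtain ⟨L, hL⟩ := hF.2.2.2 δ
    obtain ⟨M, hM⟩ := hG.2.2.2 δ
    exact ⟨L + M, hL.add hM⟩
  have hBlim : ∀ δ : SL(2, ℤ), ∃ L : ℂ,
      Tendsto (fun w : ℍ => conj (F (UpperHalfPlane.J • (δ • w)))
        - conj (G (UpperHalfPlane.J • (δ • w)))) atImInfty (𝓝 L) := by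
    intro δ
    obtain ⟨L, hL⟩ := reflect_tendsto hF δ
    obtain ⟨M, hM⟩ := reflect_tendsto hG δ
    exact ⟨L - M, hL.sub hM⟩
  -- the two auxiliary functions
  have hH₁ : ∃ c : ℂ, ∀ z : ℍ, (F z + G z)
      + (conj (F (UpperHalfPlane.J • z)) - conj (G (UpperHalfPlane.J • z))) = c := by
    refine const_of_re_invariant N (H := fun z : ℍ => (F z + G z)
      + (conj (F (UpperHalfPlane.J • z)) - conj (G (UpperHalfPlane.J • z))))
      ((hFmd.add hGmd).add (hFs.sub hGs)) ?_ ?_
    · intro γ hγ
      refine ⟨(periodMap N f (Additive.ofMul (⟨γ, hγ⟩ : Gamma0 N))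
          + periodMap N g (Additive.ofMul (⟨γ, hγ⟩ : Gamma0 N)))
        + conj (periodMap N f (Additive.ofMul (jConjGamma0 N ⟨γ, hγ⟩))
            - periodMap N g (Additive.ofMul (jConjGamma0 N ⟨γ, hγ⟩))), ?_, fun z => ?_⟩
      · have h := congrArg Complex.re (hker ⟨γ, hγ⟩)
        simp only [Complex.add_re, Complex.sub_re, Complex.zero_re] at h
        simp only [Complex.add_re, Complex.sub_re, Complex.conj_re]
        linarith
      · have h1 := hAsub ⟨γ, hγ⟩ z
        have h2 := hBsub ⟨γ, hγ⟩ z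
        simp only [] at h1 h2 ⊢
        linear_combination h1 + h2
    · intro δ
      obtain ⟨L, hL⟩ := hAlim δ
      obtain ⟨M, hM⟩ := hBlim δ
      exact ⟨L + M, hL.add hM⟩
  have hH₂ : ∃ c : ℂ, ∀ z : ℍ, Complex.I * ((F z + G z)
      - (conj (F (UpperHalfPlane.J • z)) - conj (G (UpperHalfPlane.J • z)))) = c := by
    refine const_of_re_invariant N (H := fun z : ℍ => Complex.I * ((F z + G z)
      - (conj (F (UpperHalfPlane.J • z)) - conj (G (UpperHalfPlane.J • z)))))
      (mdifferentiable_const.mul ((hFmd.add hGmd).sub (hFs.sub hGs))) ?_ ?_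
    · intro γ hγ
      refine ⟨Complex.I * ((periodMap N f (Additive.ofMul (⟨γ, hγ⟩ : Gamma0 N))
          + periodMap N g (Additive.ofMul (⟨γ, hγ⟩ : Gamma0 N)))
        - conj (periodMap N f (Additive.ofMul (jConjGamma0 N ⟨γ, hγ⟩))
            - periodMap N g (Additive.ofMul (jConjGamma0 N ⟨γ, hγ⟩)))), ?_, fun z => ?_⟩
      · have h := congrArg Complex.im (hker ⟨γ, hγ⟩)
        simp only [Complex.add_im, Complex.sub_im, Complex.zero_im] at h
        simp only [Complex.mul_re, Complex.I_re, Complex.I_im, Complex.add_im, Complex.sub_im,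
          Complex.conj_im, zero_mul, one_mul, zero_sub]
        linarith
      · have h1 := hAsub ⟨γ, hγ⟩ z
        have h2 := hBsub ⟨γ, hγ⟩ z
        simp only [] at h1 h2 ⊢
        linear_combination Complex.I * h1 - Complex.I * h2
    · intro δ
      obtain ⟨L, hL⟩ := hAlim δ
      obtain ⟨M, hM⟩ := hBlim δ
      exact ⟨Complex.I * (L - M), (hL.sub hM).const_mul Complex.I⟩
  obtain ⟨c₁, hc₁⟩ := hH₁
  obtain ⟨c₂, hc₂⟩ := hH₂
  -- `A` and `B` are constant
  have hI : Complex.I * Complex.I = -1 := Complex.I_mul_I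
  have hAconst : ∀ z : ℍ, F z + G z = (c₁ - Complex.I * c₂) / 2 := by
    intro z
    rw [← hc₁ z, ← hc₂ z]
    linear_combination ((F z + G z
      - (conj (F (UpperHalfPlane.J • z)) - conj (G (UpperHalfPlane.J • z)))) / 2) * hI
  have hBconst : ∀ z : ℍ, conj (F (UpperHalfPlane.J • z)) - conj (G (UpperHalfPlane.J • z))
      = (c₁ + Complex.I * c₂) / 2 := by
    intro z
    rw [← hc₁ z, ← hc₂ z]
    linear_combination (-(F z + G z
      - (conj (F (UpperHalfPlane.J • z)) - conj (G (UpperHalfPlane.J • z)))) / 2) * hI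
  have hDconst : ∀ z : ℍ, F z - G z = conj ((c₁ + Complex.I * c₂) / 2) := by
    intro z
    have h := hBconst (UpperHalfPlane.J • z)
    rw [J_smul_J_smul] at h
    rw [← h, map_sub, Complex.conj_conj, Complex.conj_conj]
  -- hence `f + g = 0` and `f - g = 0`
  have hsum : ∀ τ : ℍ, f τ + g τ = 0 := by
    intro τ
    have hd : HasDerivAt (fun y : ℂ => F (ofComplex y) + G (ofComplex y)) (f τ + g τ) τ :=
      (hF.1 τ).fun_add (hG.1 τ)
    have hd0 : HasDerivAt (fun y : ℂ => F (ofComplex y) + G (ofComplex y)) 0 τ := by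
      have : (fun y : ℂ => F (ofComplex y) + G (ofComplex y))
          = fun _ => (c₁ - Complex.I * c₂) / 2 := funext fun y => hAconst _
      rw [this]
      exact hasDerivAt_const _ _
    exact hd.unique hd0
  have hdiff : ∀ τ : ℍ, f τ - g τ = 0 := by
    intro τ
    have hd : HasDerivAt (fun y : ℂ => F (ofComplex y) - G (ofComplex y)) (f τ - g τ) τ :=
      (hF.1 τ).fun_sub (hG.1 τ)
    have hd0 : HasDerivAt (fun y : ℂ => F (ofComplex y) - G (ofComplex y)) 0 τ := by
      have : (fun y : ℂ => F (ofComplex y) - G (ofComplex y))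
          = fun _ => conj ((c₁ + Complex.I * c₂) / 2) := funext fun y => hDconst _
      rw [this]
      exact hasDerivAt_const _ _
    exact hd.unique hd0
  have hf0 : f = 0 := by
    ext τ
    have h1 := hsum τ
    have h2 := hdiff τ
    show f τ = 0
    linear_combination (1 / 2 : ℂ) * h1 + (1 / 2 : ℂ) * h2
  have hg0 : g = 0 := by
    ext τ
    have h1 := hsum τ
    have h2 := hdiff τ
    show g τ = 0
    linear_combination (1 / 2 : ℂ) * h1 - (1 / 2 : ℂ) * h2
  rw [hf0, hg0]
  rfl

end Fermat.Agent.H31
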